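import Fermat.Agent.S55.F.Basic
import Fermat.Agent.S55.Fc.LES

/-!
# S55 F-con 8a: level cohomology is a `F.CohTheory`  (TARGET #1 of helper71's interface)
-/

set_option autoImplicit false

noncomputable section

namespace Fermat.Agent.S55

open Representation

variable {k : Type} [Field k] {Γ : Type} [Group Γ]

section aux

variable {V W : Type} [AddCommGroup V] [Module k V] [AddCommGroup W] [Module k W]
variable {ρ : Representation k Γ V} {σ : Representation k Γ W}

/-- the `PairHom` of an intertwining map -/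
abbrev PairHom.ofInt (L : Lev Γ) (f : ρ.IntertwiningMap σ) : PairHom L L ρ σ :=
  PairHom.ofLinear L f.toLinearMap f.isIntertwining

/-- a representation with open kernel is discrete -/
lemma isDiscrete_of_isOpen_repKer {L : Lev Γ} (h : L.IsOpen ρ.ker) : IsDiscrete L ρ :=
  isDiscrete_of_isOpen_ker h fun _ hu => hu

/-- translation of short exact sequences -/
def SES.ofF {R P M : Type} [AddCommGroup R] [Module k R] [AddCommGroup P] [Module k P]
    [AddCommGroup M] [Module k M] {ρR : Representation k Γ R} {ρP : Representation k Γ P}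
    {ρM : Representation k Γ M} (S : F.SES ρR ρP ρM) : SES ρR ρP ρM where
  i := S.i.toLinearMap
  π := S.π.toLinearMap
  hi := S.i.isIntertwining
  hπ := S.π.isIntertwining
  inj := S.inj
  surj := S.surj
  exact := S.exact

/-- `f ↦ H¹(f)` is linear -/
def map1Lin (L : Lev Γ) (ρ : Representation k Γ V) (σ : Representation k Γ W) :
    ρ.IntertwiningMap σ →ₗ[k] (H1 L ρ →ₗ[k] H1 L σ) where
  toFun f := (PairHom.ofInt L f).H1map
  map_add' f g := by
    refine LinearMap.ext fun c => ?_
    induction c using H1_induction with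
    | h x => rfl
  map_smul' c f := by
    refine LinearMap.ext fun y => ?_
    induction y using H1_induction with
    | h x => rfl

/-- `f ↦ H²(f)` is linear -/
def map2Lin (L : Lev Γ) (ρ : Representation k Γ V) (σ : Representation k Γ W) :
    ρ.IntertwiningMap σ →ₗ[k] (H2 L ρ →ₗ[k] H2 L σ) where
  toFun f := (PairHom.ofInt L f).H2map
  map_add' f g := by
    refine LinearMap.ext fun c => ?_
    induction c using H2_induction with
    | h x => rfl
  map_smul' c f := by
    refine LinearMap.ext fun y => ?_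
    induction y using H2_induction with
    | h x => rfl

@[simp] lemma map1Lin_apply (L : Lev Γ) (f : ρ.IntertwiningMap σ) :
    map1Lin L ρ σ f = (PairHom.ofInt L f).H1map := rfl

@[simp] lemma map2Lin_apply (L : Lev Γ) (f : ρ.IntertwiningMap σ) :
    map2Lin L ρ σ f = (PairHom.ofInt L f).H2map := rfl

/-- effacement of `H¹` -/
lemma H1_efface (L : Lev Γ) (ρ : Representation k Γ V) (hρ : L.IsOpen ρ.ker) (x : H1 L ρ) :
    ∃ V₀ : Subgroup Γ, L.IsOpen V₀ ∧ ∀ U : Subgroup Γ, L.IsOpen U → U ≤ V₀ →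
      (PairHom.ofInt L (F.unit U ρ)).H1map x = 0 := by
  induction x using H1_induction with
  | h c =>
    obtain ⟨V₁, hV₁, -, -, hl⟩ := (Z1.isLev c).exists_normal
    refine ⟨V₁ ⊓ ρ.ker, (Lev.isOpen_of_mem hV₁).inf hρ, fun U _ hUV => ?_⟩
    rw [PairHom.H1map_mk, H1π_eq_zero_iff, mem_B1_iff]
    refine ⟨⟨fun γ => (c : Γ → V) γ, ?_⟩, fun g => ?_⟩
    · intro u γ
      have hu := hUV u.2
      have h1 : ρ (u : Γ) = 1 := hu.2
      show (c : Γ → V) ((u : Γ) * γ) = ρ (u : Γ) ((c : Γ → V) γ)
      rw [hl γ u hu.1, h1]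
      rfl
    · apply Subtype.ext
      funext γ
      show ρ γ ((c : Γ → V) g) = (c : Γ → V) (γ * g) - (c : Γ → V) γ
      rw [Z1.mul]
      abel

lemma isOpen_normalCore {L : Lev Γ} {U : Subgroup Γ} (hU : L.IsOpen U) :
    L.IsOpen U.normalCore := by
  obtain ⟨V, hV, hVn, hVU⟩ := hU.exists_normal
  exact ⟨V, hV, (Subgroup.normal_le_normalCore (hN := hVn)).2 hVU⟩

end aux

open Classical in
/-- **TARGET #1**: level cohomology as an abstract cohomology theory. -/
def cohTheory (k : Type) [Field k] {Γ : Type} [Group Γ] (L : Lev Γ) : F.CohTheory k Γ where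
  IsOpen := L.IsOpen
  isOpen_top := L.isOpen_top
  isOpen_inf := fun hU hV => hU.inf hV
  isOpen_mono := fun h hU => hU.mono h
  finiteIndex := fun hU => hU.finiteIndex
  isOpen_normalCore := fun hU => isOpen_normalCore hU
  H1 := fun ρ => ModuleCat.of k (H1 L ρ)
  H2 := fun ρ => ModuleCat.of k (H2 L ρ)
  map1 := fun {_ _ _ _ _ _ ρ σ} => map1Lin L ρ σ
  map2 := fun {_ _ _ _ _ _ ρ σ} => map2Lin L ρ σ
  map1_id := fun ρ => PairHom.H1map_id (LG := L) (ρ := ρ)
  map2_id := fun ρ => PairHom.H2map_id (LG := L) (ρ := ρ)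
  map1_comp := fun g f => PairHom.H1map_comp (PairHom.ofInt L g) (PairHom.ofInt L f)
  map2_comp := fun g f => PairHom.H2map_comp (PairHom.ofInt L g) (PairHom.ofInt L f)
  δ0 := fun {_ _ _ _ _ _ _ _ _ _ ρP _} S =>
    if h : IsDiscrete L ρP then (SES.ofF S).δ0 L h else 0
  δ1 := fun {_ _ _ _ _ _ _ _ _ _ ρP _} S =>
    if h : IsDiscrete L ρP then (SES.ofF S).δ1 L h else 0
  exact_inv_δ0 := fun S hP => by
    rw [dif_pos (isDiscrete_of_isOpen_repKer hP)]
    exact (SES.ofF S).exact_H0_δ0 L (isDiscrete_of_isOpen_repKer hP)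
  exact_δ0_map1 := fun S hP => by
    rw [dif_pos (isDiscrete_of_isOpen_repKer hP)]
    exact (SES.ofF S).exact_δ0_H1 L (isDiscrete_of_isOpen_repKer hP)
  exact_map1_map1 := fun S hP => (SES.ofF S).exact_H1 L (isDiscrete_of_isOpen_repKer hP)
  exact_map1_δ1 := fun S hP => by
    rw [dif_pos (isDiscrete_of_isOpen_repKer hP)]
    exact (SES.ofF S).exact_H1_δ1 L (isDiscrete_of_isOpen_repKer hP)
  exact_δ1_map2 := fun S hP => by
    rw [dif_pos (isDiscrete_of_isOpen_repKer hP)]
    exact (SES.ofF S).exact_δ1_H2 L (isDiscrete_of_isOpen_repKer hP)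
  exact_map2_map2 := fun S hP => (SES.ofF S).exact_H2 L (isDiscrete_of_isOpen_repKer hP)
  efface := fun ρ hρ x => H1_efface L ρ hρ x

section simp

variable (L : Lev Γ) {V W : Type} [AddCommGroup V] [Module k V] [AddCommGroup W] [Module k W]
variable (ρ : Representation k Γ V) {σ : Representation k Γ W}

lemma cohTheory_isOpen (U : Subgroup Γ) : (cohTheory k L).IsOpen U ↔ L.IsOpen U := Iff.rfl

lemma cohTheory_H1 : ((cohTheory k L).H1 ρ : Type) = H1 L ρ := rfl

lemma cohTheory_H2 : ((cohTheory k L).H2 ρ : Type) = H2 L ρ := rfl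

end simp

end Fermat.Agent.S55

end
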