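import Fermat.Agent.S55.Fc.Inst.LocMap
import Fermat.Agent.S55.F.Defs

/-!
# S55 F-con 8c: the concrete `F.Datum` and the numerical hypotheses in CORE language

`LocSys G` : a group `G` with two level structures `L` (global levels, e.g. `levS S`) and `L'`
(all levels, e.g. `levAll`, finer than `L`) and finitely many subgroups `Dv v ≤ G`
(decomposition groups).  Local cohomology of a subgroup `W ≤ G` is `H^i (L'.sub W) _`,
global cohomology of an `L`-open subgroup `U ≤ G` is `H^i (L.sub U) _`.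
`CoreNumbers` is what blocks [G] and [L] have to prove; `Fc/Trans` shows
`CoreNumbers → (datum).Numbers`.
-/

set_option autoImplicit false

noncomputable section

namespace Fermat.Agent.S55

open Representation Module

/-- the abstract arithmetic situation, in terms of subgroups of one group `G` -/
structure LocSys (G : Type) [Group G] where
  /-- global levels -/
  L : Lev G
  /-- all levels -/
  L' : Lev G
  fine : Lev.Cont L' L (MonoidHom.id G)
  ι : Type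
  [fin : Fintype ι]
  /-- the decomposition groups -/
  Dv : ι → Subgroup G

attribute [instance] LocSys.fin

/-- restriction with trivial coefficients `k` -/
def trivRes (k : Type*) [CommRing k] {G H : Type} [Group G] [Group H] {LG : Lev G} {LH : Lev H}
    (f : H →* G) (hf : Lev.Cont LH LG f) :
    PairHom LG LH (Representation.trivial k G k) (Representation.trivial k H k) where
  f := f
  φ := LinearMap.id
  cont := hf
  compat := fun _ _ => rfl

/-- `g D g⁻¹` -/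
def conjSub {G : Type} [Group G] (D : Subgroup G) (g : G) : Subgroup G :=
  D.map (MulAut.conj g).toMonoidHom

lemma mem_conjSub {G : Type} [Group G] {D : Subgroup G} {g x : G} :
    x ∈ conjSub D g ↔ g⁻¹ * x * g ∈ D := by
  constructor
  · rintro ⟨d, hd, rfl⟩
    simpa [mul_assoc] using hd
  · intro h
    exact ⟨_, h, by simp [mul_assoc]⟩

namespace LocSys

variable {G : Type} [Group G] (𝒮 : LocSys G)

/-- `W ≤ U`: the inclusion is continuous from the fine levels of `W` to the coarse levels of `U` -/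
lemma cont_inclusion {W U : Subgroup G} (h : W ≤ U) :
    Lev.Cont (𝒮.L'.sub W) (𝒮.L.sub U) (Subgroup.inclusion h) := by
  rintro _ ⟨V, hV, rfl⟩
  obtain ⟨V', hV', hVV⟩ := 𝒮.fine V hV
  exact ⟨_, ⟨V', hV', rfl⟩, fun x hx => hVV hx⟩

lemma cont_subtype (W : Subgroup G) : Lev.Cont (𝒮.L'.sub W) 𝒮.L W.subtype := by
  intro V hV
  obtain ⟨V', hV', hVV⟩ := 𝒮.fine V hV
  exact ⟨_, ⟨V', hV', rfl⟩, fun x hx => hVV hx⟩

/-- `W` is open in `D` for the fine levels -/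
def IsOpenIn (D W : Subgroup G) : Prop := ∃ V ∈ 𝒮.L'.sets, V ⊓ D ≤ W

/-- `Ш²(U; k)`: classes of `H²(U, k)` which die on `U ∩ g D_v g⁻¹` for all `v` and all `g`. -/
def sha2U (k : Type*) [CommRing k] (U : Subgroup G) :
    Submodule k (H2 (𝒮.L.sub U) (Representation.trivial k U k)) :=
  ⨅ (v : 𝒮.ι) (g : G), LinearMap.ker (trivRes k
    (Subgroup.inclusion (inf_le_left : U ⊓ conjSub (𝒮.Dv v) g ≤ U)) (𝒮.cont_inclusion _)).H2map

/-- the number of places of `U`: `∑_v #(U \ G / D_v)` -/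
def sU (U : Subgroup G) : ℕ :=
  ∑ v, Nat.card (DoubleCoset.Quotient (U : Set G) (𝒮.Dv v : Set G))

variable {p : ℕ} [Fact p.Prime]

/-- the concrete datum -/
def datum (ω : G →* (ZMod p)ˣ) (hω : 𝒮.L.IsOpen ω.ker) (dl : 𝒮.ι → ℕ) : F.Datum p where
  G := G
  CG := cohTheory (ZMod p) 𝒮.L
  ι := 𝒮.ι
  D := fun v => 𝒮.Dv v
  CD := fun v => cohTheory (ZMod p) (𝒮.L'.sub (𝒮.Dv v))
  r := fun v => (𝒮.Dv v).subtype
  loc := fun v => locMap (ZMod p) 𝒮.L (𝒮.L'.sub (𝒮.Dv v)) (𝒮.Dv v).subtype (𝒮.cont_subtype _)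
  ω := ω
  ω_open := hω
  dl := dl

/-- **THE NUMERICAL HYPOTHESES IN CORE LANGUAGE** (to be proved by blocks [G] and [L]). -/
structure CoreNumbers (ω : G →* (ZMod p)ˣ) (dl : 𝒮.ι → ℕ) : Prop where
  ne : Nonempty 𝒮.ι
  dl_sum : ∑ v, dl v = 1
  /-- (L1) -/
  l1 : ∀ (v : 𝒮.ι) (W : Subgroup G), W ≤ 𝒮.Dv v → 𝒮.IsOpenIn (𝒮.Dv v) W → W ≤ ω.ker →
    Module.Finite (ZMod p) (H1 (𝒮.L'.sub W) (Representation.trivial (ZMod p) W (ZMod p))) ∧
    finrank (ZMod p) (H1 (𝒮.L'.sub W) (Representation.trivial (ZMod p) W (ZMod p)))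
      = 2 + dl v * W.relIndex (𝒮.Dv v)
  /-- (L2) -/
  l2 : ∀ (v : 𝒮.ι) (W : Subgroup G), W ≤ 𝒮.Dv v → 𝒮.IsOpenIn (𝒮.Dv v) W → W ≤ ω.ker →
    finrank (ZMod p) (H2 (𝒮.L'.sub W) (Representation.trivial (ZMod p) W (ZMod p))) = 1
  /-- (L2'') -/
  l2mu : ∀ v : 𝒮.ι, Nontrivial (H2 (𝒮.L'.sub (𝒮.Dv v)) ((F.mu ω).comp (𝒮.Dv v).subtype))
  /-- (N1) -/
  n1 : ∀ U : Subgroup G, 𝒮.L.IsOpen U → U ≤ ω.ker →
    Module.Finite (ZMod p) (H1 (𝒮.L.sub U) (Representation.trivial (ZMod p) U (ZMod p))) ∧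
    Module.Finite (ZMod p) (𝒮.sha2U (ZMod p) U) ∧
    2 * finrank (ZMod p) (H1 (𝒮.L.sub U) (Representation.trivial (ZMod p) U (ZMod p)))
      = 2 * finrank (ZMod p) (𝒮.sha2U (ZMod p) U) + U.index + 2 * 𝒮.sU U
  /-- (N2) -/
  n2 : ∀ (x : H2 𝒮.L (F.mu ω)) (v : 𝒮.ι),
    (∀ w, w ≠ v → (PairHom.res (F.mu ω) (𝒮.Dv w).subtype (𝒮.cont_subtype _)).H2map x = 0) →
    (PairHom.res (F.mu ω) (𝒮.Dv v).subtype (𝒮.cont_subtype _)).H2map x = 0
  /-- (N3) -/
  n3 : ∀ U : Subgroup G, 𝒮.L.IsOpen U → U ≤ ω.ker →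
    ∃ (n : ℕ) (c : ℕ → Subgroup G), c 0 = U ∧
      (∀ i, c (i + 1) ≤ c i ∧ 𝒮.L.IsOpen (c (i + 1)) ∧ ((c (i + 1)).subgroupOf (c i)).Normal ∧
        (c (i + 1)).relIndex (c i) = p) ∧ 𝒮.sU (c n) ≤ p ^ n

end LocSys

end Fermat.Agent.S55

end
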