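import Fermat.Agent.S55.Fc.Inst.CohTheory

/-!
# S55 F-con 8b: restriction along a continuous homomorphism is a `F.LocMap`
-/

set_option autoImplicit false

noncomputable section

namespace Fermat.Agent.S55

open Representation

section aux

variable {k : Type} [Field k] {G D : Type} [Group G] [Group D] {LG : Lev G} {LD : Lev D}

lemma res_H1map_ofInt (r : D →* G) (hr : Lev.Cont LD LG r)
    {V W : Type} [AddCommGroup V] [Module k V] [AddCommGroup W] [Module k W]
    {ρ : Representation k G V} {σ : Representation k G W} (f : ρ.IntertwiningMap σ)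
    (x : H1 LG ρ) :
    (PairHom.res σ r hr).H1map ((PairHom.ofInt LG f).H1map x)
      = (PairHom.ofInt LD (F.resMap r f)).H1map ((PairHom.res ρ r hr).H1map x) := by
  rw [← LinearMap.comp_apply, ← LinearMap.comp_apply, ← PairHom.H1map_comp,
    ← PairHom.H1map_comp]
  congr 2

lemma res_H2map_ofInt (r : D →* G) (hr : Lev.Cont LD LG r)
    {V W : Type} [AddCommGroup V] [Module k V] [AddCommGroup W] [Module k W]
    {ρ : Representation k G V} {σ : Representation k G W} (f : ρ.IntertwiningMap σ)
    (x : H2 LG ρ) :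
    (PairHom.res σ r hr).H2map ((PairHom.ofInt LG f).H2map x)
      = (PairHom.ofInt LD (F.resMap r f)).H2map ((PairHom.res ρ r hr).H2map x) := by
  rw [← LinearMap.comp_apply, ← LinearMap.comp_apply, ← PairHom.H2map_comp,
    ← PairHom.H2map_comp]
  congr 2

variable {R P M : Type} [AddCommGroup R] [Module k R] [AddCommGroup P] [Module k P]
    [AddCommGroup M] [Module k M] {ρR : Representation k G R} {ρP : Representation k G P}
    {ρM : Representation k G M}

open Classical in
lemma cohTheory_δ0_eq (S : F.SES ρR ρP ρM) (h : IsDiscrete LG ρP) :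
    (cohTheory k LG).δ0 S = (SES.ofF S).δ0 LG h := by
  show (if h : IsDiscrete LG ρP then (SES.ofF S).δ0 LG h else 0) = _
  rw [dif_pos h]

open Classical in
lemma cohTheory_δ1_eq (S : F.SES ρR ρP ρM) (h : IsDiscrete LG ρP) :
    (cohTheory k LG).δ1 S = (SES.ofF S).δ1 LG h := by
  show (if h : IsDiscrete LG ρP then (SES.ofF S).δ1 LG h else 0) = _
  rw [dif_pos h]

lemma res_δ0 (r : D →* G) (hr : Lev.Cont LD LG r) (S : F.SES ρR ρP ρM)
    (hP : LG.IsOpen ρP.ker) (m : ρM.invariants) :
    (PairHom.res ρR r hr).H1map ((cohTheory k LG).δ0 S m)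
      = (cohTheory k LD).δ0 (S.res r) (F.invRes r ρM m) := by
  have h : IsDiscrete LG ρP := isDiscrete_of_isOpen_repKer hP
  have h' : IsDiscrete LD (F.res r ρP) := h.comp hr
  rw [cohTheory_δ0_eq S h, cohTheory_δ0_eq (S.res r) h']
  exact SES.δ0_natural (SES.ofF S) (SES.ofF (S.res r)) h h' (PairHom.res ρR r hr)
    (PairHom.res ρP r hr) (PairHom.res ρM r hr) rfl rfl (fun _ => rfl) (fun _ => rfl) m

lemma res_δ1 (r : D →* G) (hr : Lev.Cont LD LG r) (S : F.SES ρR ρP ρM)
    (hP : LG.IsOpen ρP.ker) (x : H1 LG ρM) :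
    (PairHom.res ρR r hr).H2map ((cohTheory k LG).δ1 S x)
      = (cohTheory k LD).δ1 (S.res r) ((PairHom.res ρM r hr).H1map x) := by
  have h : IsDiscrete LG ρP := isDiscrete_of_isOpen_repKer hP
  have h' : IsDiscrete LD (F.res r ρP) := h.comp hr
  rw [cohTheory_δ1_eq S h, cohTheory_δ1_eq (S.res r) h']
  exact SES.δ1_natural (SES.ofF S) (SES.ofF (S.res r)) h h' (PairHom.res ρR r hr)
    (PairHom.res ρP r hr) (PairHom.res ρM r hr) rfl rfl (fun _ => rfl) (fun _ => rfl) x

end aux

/-- **TARGET #1**: localisation maps. -/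
def locMap (k : Type) [Field k] {G D : Type} [Group G] [Group D] (LG : Lev G) (LD : Lev D)
    (r : D →* G) (hr : Lev.Cont LD LG r) : F.LocMap (cohTheory k LG) (cohTheory k LD) r where
  cont := fun hU => hU.comap hr
  loc1 := fun ρ => (PairHom.res ρ r hr).H1map
  loc2 := fun ρ => (PairHom.res ρ r hr).H2map
  loc1_map1 := fun f x => res_H1map_ofInt r hr f x
  loc2_map2 := fun f x => res_H2map_ofInt r hr f x
  loc1_δ0 := fun S hP m => res_δ0 r hr S hP m
  loc2_δ1 := fun S hP x => res_δ1 r hr S hP x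

end Fermat.Agent.S55

end
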